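import Fermat.Agent.Mazur.Moduli.Normalize
import Fermat.Agent.ModFun.ComplexModel
import Fermat.Agent.JacTorsion.Descent
import Fermat.Prelude.Def_ModularCurve_ModularUnit

/-!
# Places of the `ℚ̄`-model with prescribed values of `j` and of the modular unit
-/

noncomputable section

open UpperHalfPlane hiding I
open ModularCurve AlgebraicCurve
open scoped MatrixGroups Manifold

namespace Fermat.Agent.Mazur.Moduli

open Fermat.Agent.ModFun Fermat.Agent.Igusa

local notation "ℚbar" => AlgebraicClosure ℚ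

/-- Shortcut: the search through `LaurentSeries` is slow. -/
local instance instAlgebraBarPlace (n : ℕ) : Algebra ℚbar (modularFunctionFieldBar n) :=
  inferInstance

variable (p : ℕ) [NeZero p]

/-- Shortcut: the search through `LaurentSeries` is slow. -/
local instance instAlgebraFC : Algebra ℂ (FC p) := inferInstance

/-- The modular unit in the complex function field. -/
def unitC : FC p := toFC p (uInvHol (dvd_refl p))

/-- `j` in the `ℚ̄`-model. -/
abbrev jBar : modularFunctionFieldBar p := jBase p ℚbar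

theorem coeffEmb_deltaSeries : coeffEmb ℂ deltaSeries = deltaSer ℂ := by
  rw [deltaSeries, deltaSer_eq, map_mul]
  congr 1
  · simp [coeffEmb, coeffMap_single]
  · ext n
    rcases le_or_gt 0 n with hn | hn
    · lift n to ℕ using hn
      simp [coeffEmb, dedekindEtaUnitQ]
    · simp [coeffEmb, ofPowerSeries_coeff_of_neg _ hn]

theorem coe_unitC : (unitC p : LaurentSeries ℂ) = coeffEmb ℂ (modularUnitSeries p) := by
  have h1 : qExp p (uInvHol (dvd_refl p)) * ModularCurve.qExpand ℂ p (deltaSer ℂ) = deltaSer ℂ := by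
    have e : (((⟨_, Hol_le_CuspAlg_one (uInvHol (dvd_refl p) : Hol p).2⟩ : CuspAlg 1)
        * compAffine p 0 1 (discC 1) : CuspAlg 1) : ℍ → ℂ) = (discC 1 : CuspAlg 1) := by
      funext τ
      show (uFun p τ)⁻¹ * ModularForm.discriminant (affine p 0 1 τ) = ModularForm.discriminant τ
      have hs : affine p 0 1 τ = scaleH p τ :=
        UpperHalfPlane.ext (by simp [coe_affine, coe_scaleH])
      rw [hs, uFun]
      have := ModularForm.discriminant_ne_zero (scaleH p τ)
      field_simp
    have h2 := congrArg (laurentExp 1) (Subtype.ext e)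
    rw [map_mul, laurentExp_compAffine, affineRoot_zero, twist_one, laurentExp_discC] at h2
    exact h2
  have hne : ModularCurve.qExpand ℂ p (deltaSer ℂ) ≠ 0 := by
    intro h0
    have := congrArg (fun s => s.coeff ((p : ℤ) * 1)) h0
    simp only [qExpand_coeff_mul, HahnSeries.coeff_zero, ← coeffEmb_deltaSeries, coeffEmb,
      coeffMap_coeff, isMonicOfOrder_deltaSeries.coeff_self, map_one] at this
    exact one_ne_zero this
  rw [unitC, coe_toFC, modularUnitSeries, map_mul, map_inv₀, deltaSeriesN,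
    show coeffEmb ℂ (ModularCurve.qExpand ℚ p deltaSeries)
      = ModularCurve.qExpand ℂ p (coeffEmb ℂ deltaSeries) from coeffMap_qExpand ..,
    coeffEmb_deltaSeries]
  exact (eq_mul_inv_iff_mul_eq₀ hne).mpr h1

theorem coeffMap_iotaC_coeffEmb (x : LaurentSeries ℚ) :
    coeffMap iotaC (coeffEmb ℚbar x) = coeffEmb ℂ x := by
  rw [coeffEmb, coeffEmb, coeffMap_coeffMap]
  exact coeffMap_congr (RingHom.ext fun q => by
    rw [RingHom.comp_apply, eq_ratCast, eq_ratCast, map_ratCast]) x

/-- The modular unit in the `ℚ̄`-model. -/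
def unitBar : modularFunctionFieldBar p :=
  ⟨coeffEmb ℚbar (modularUnitSeries p), JacTorsion.mem_of_coeffMap_mem_cExt (ι := iotaC) (by
    rw [cExt_bar, coeffMap_iotaC_coeffEmb, ← coe_unitC]
    exact (unitC p).2)⟩

theorem coe_unitBar : (unitBar p : LaurentSeries ℚbar) = coeffEmb ℚbar (modularUnitSeries p) :=
  rfl

/-- The inclusion of the `ℚ̄`-model in the complex model. -/
def barC : modularFunctionFieldBar p →+* FC p :=
  ((coeffMap iotaC).comp (modularFunctionFieldBar p).val.toRingHom).codRestrict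
    (FC p).toSubfield fun x => by
      have h := JacTorsion.coeffMap_mem_cExt iotaC (modularFunctionFieldBar p) x.2
      rw [cExt_bar] at h
      exact h

omit [NeZero p] in
theorem coe_barC (x : modularFunctionFieldBar p) :
    (barC p x : LaurentSeries ℂ) = coeffMap iotaC (x : LaurentSeries ℚbar) := rfl

omit [NeZero p] in
theorem barC_algebraMap (a : ℚbar) :
    barC p (algebraMap _ _ a) = algebraMap ℂ (FC p) (iotaC a) := by
  refine Subtype.ext ?_
  show coeffMap iotaC (algebraMap ℚbar (LaurentSeries ℚbar) a) = algebraMap ℂ (LaurentSeries ℂ) _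
  rw [algebraMap_laurentSeries_eq_single, algebraMap_laurentSeries_eq_single, coeffMap_single]

theorem barC_jBar : barC p (jBar p) = jF p :=
  Subtype.ext (by rw [coe_barC, coe_jBase, coe_jF, coeffMap_jqModC])

theorem barC_unitBar : barC p (unitBar p) = unitC p :=
  Subtype.ext (by rw [coe_barC, coe_unitBar, coe_unitC, coeffMap_iotaC_coeffEmb])

variable {p}

theorem exists_place_eq {E E' : IntermediateField ℂ (LaurentSeries ℂ)} (h : E = E')
    (v : Place ℂ E) : ∃ v' : Place ℂ E', ∀ (x : E) (y : E'),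
      (x : LaurentSeries ℂ) = y → v'.ord y = v.ord x := by
  subst h
  exact ⟨v, fun x y hxy => by rw [Subtype.ext hxy]⟩

theorem exists_above (P : Place ℚbar (modularFunctionFieldBar p)) :
    ∃ v : Place ℂ (FC p), ∀ f, v.ord (barC p f) = P.ord f := by
  obtain ⟨w, hw⟩ := JacTorsion.exists_place_over
    (JacTorsion.cScalarExt iotaC (modularFunctionFieldBar p)) P
    (JacTorsion.residueConst_of_isFunctionField P)
  obtain ⟨v, hv⟩ := exists_place_eq (cExt_bar (N := p)) w
  exact ⟨v, fun f => (hv _ (barC p f) rfl).trans (hw f)⟩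

theorem exists_below (v : Place ℂ (FC p)) {f₀ : modularFunctionFieldBar p}
    (hf₀ : v.ord (barC p f₀) ≠ 0) :
    ∃ P : Place ℚbar (modularFunctionFieldBar p), ∀ f, v.ord (barC p f) = P.ord f := by
  obtain ⟨w, hw⟩ := exists_place_eq (cExt_bar (N := p)).symm v
  have hw' : ∀ f, w.ord ((JacTorsion.cScalarExt iotaC (modularFunctionFieldBar p)).emb f)
      = v.ord (barC p f) := fun f => hw (barC p f) _ rfl
  rcases JacTorsion.ord_restrict (JacTorsion.cScalarExt iotaC (modularFunctionFieldBar p))
    (fun P => JacTorsion.residueConst_of_isFunctionField P) w with h | ⟨P, h⟩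
  · exact absurd ((hw' f₀).symm.trans (h f₀)) hf₀
  · exact ⟨P, fun f => (hw' f).symm.trans (h f)⟩

theorem ord_toFC_sub_pos {f : Hol p} {c : ℂ} (hne : toFC p f - algebraMap ℂ (FC p) c ≠ 0)
    (τ : ℍ) : 0 < (placeAt p τ).ord (toFC p f - algebraMap ℂ (FC p) c) ↔ (f : ℍ → ℂ) τ = c := by
  obtain ⟨m, hm, h⟩ := exists_ordMer_eq_mul (N := p) τ
  set g : HolH := ⟨fun z => (f : ℍ → ℂ) z - c, f.2.1.sub mdifferentiable_const⟩
  have he : emb p ((1 : SL(2, ℤ)) : Coset p) (toFC p f - algebraMap ℂ (FC p) c)
      = algebraMap HolH MerH g := by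
    rw [map_sub, emb_toFC, AlgHom.commutes, toMerH_apply, IsScalarTower.algebraMap_apply ℂ HolH MerH,
      ← map_sub]
    congr 1
    exact Subtype.ext (funext fun z => by simp [g, tr_one])
  have hg : g ≠ 0 := fun h0 => by
    rw [h0, map_zero] at he
    exact hne ((map_eq_zero_iff _ (emb p _).injective).mp he)
  have h' := h _ hne
  rw [he, ordMer_algebraMap hg] at h'
  refine Iff.trans ?_ ((ordHol_pos_iff hg τ).trans sub_eq_zero)
  constructor <;> intro h0
  · have : (0 : ℤ) < m * (placeAt p τ).ord (toFC p f - algebraMap ℂ (FC p) c) := mul_pos hm h0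
    omega
  · exact pos_of_mul_pos_right (h' ▸ (by exact_mod_cast h0 :
      (0 : ℤ) < ordHol τ g)) hm.le

theorem transcendental_unitBar (hp : 1 < p) (b : ℚbar) :
    unitBar p ≠ algebraMap _ _ b := by
  intro h
  have h' := congrArg (fun x : modularFunctionFieldBar p =>
    (x : LaurentSeries ℚbar).coeff (1 - p)) h
  simp only [coe_unitBar, coeffEmb, coeffMap_coeff, coeff_modularUnitSeries_self] at h'
  have e : ((algebraMap ℚbar (modularFunctionFieldBar p) b : modularFunctionFieldBar p) :
      LaurentSeries ℚbar).coeff (1 - p) = 0 := by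
    change (algebraMap ℚbar (LaurentSeries ℚbar) b).coeff _ = 0
    rw [algebraMap_laurentSeries_eq_single, HahnSeries.coeff_single_of_ne (by omega)]
  rw [e, map_one] at h'
  exact one_ne_zero h'

/-- The conditions `j(x) = a`, `w(x) = b`. -/
def HasValues (x : Place ℚbar (modularFunctionFieldBar p)) (a b : ℚbar) : Prop :=
  0 < x.ord (jBar p - algebraMap _ _ a) ∧ 0 < x.ord (unitBar p - algebraMap _ _ b)

theorem exists_hasValues (hp : 1 < p) {τ : ℍ} {a b : ℚbar} (ha : iotaC a = ModFun.jH τ)
    (hb : iotaC b = (uFun p τ)⁻¹) :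
    ∃ x : Place ℚbar (modularFunctionFieldBar p), HasValues x a b := by
  have hj : 0 < (placeAt p τ).ord (barC p (jBar p - algebraMap _ _ a)) := by
    rw [map_sub, barC_jBar, barC_algebraMap, ha]; exact ord_jF_sub_placeAt_pos τ
  obtain ⟨P, hP⟩ := exists_below (placeAt p τ) hj.ne'
  refine ⟨P, by rw [← hP]; exact hj, ?_⟩
  rw [← hP, map_sub, barC_unitBar, barC_algebraMap, hb, unitC, ord_toFC_sub_pos]
  · rfl
  · intro h0
    have h1 : barC p (unitBar p - algebraMap _ _ b) = 0 := by
      rw [map_sub, barC_unitBar, barC_algebraMap, hb]; exact h0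
    exact transcendental_unitBar hp b (sub_eq_zero.mp ((map_eq_zero_iff _ (barC p).injective).mp h1))

/-- A place with finite values is dominated by a point of the upper half plane. -/
theorem exists_point_of_hasValues {x : Place ℚbar (modularFunctionFieldBar p)} {a b : ℚbar}
    (h : HasValues x a b) : ∃ τ : ℍ, (∀ f, (placeAt p τ).ord (barC p f) = x.ord f) ∧
      ModFun.jH τ = iotaC a ∧ (uFun p τ)⁻¹ = iotaC b := by
  obtain ⟨v, hv⟩ := exists_above x
  have hj : 0 < v.ord (jF p - algebraMap ℂ (FC p) (iotaC a)) := by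
    rw [← barC_jBar, ← barC_algebraMap, ← map_sub, hv]; exact h.1
  have hmem : jF p ∈ v.toValuationSubring := by
    have h1 := JacTorsion.mem_of_ord_nonneg v hj.le
    simpa using add_mem h1 (v.algebraMap_mem' (iotaC a))
  obtain ⟨τ, rfl⟩ := exists_eq_placeAt hmem
  refine ⟨τ, hv, ?_, ?_⟩
  · rw [← jd_one_apply (N := p) τ, ← ModFun.jInv_eq_jd_one]
    refine (ord_toFC_sub_pos ?_ τ).mp hj
    intro h0
    rw [← jF] at h0
    rw [h0, Place.ord_zero] at hj
    exact lt_irrefl _ hj
  · have hw : 0 < (placeAt p τ).ord (toFC p (uInvHol (dvd_refl p))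
        - algebraMap ℂ (FC p) (iotaC b)) := by
      have := h.2
      rw [← hv, map_sub, barC_unitBar, barC_algebraMap] at this
      exact this
    refine (ord_toFC_sub_pos ?_ τ).mp hw
    intro h0
    rw [h0, Place.ord_zero] at hw
    exact lt_irrefl _ hw

theorem eq_of_orbit {x x' : Place ℚbar (modularFunctionFieldBar p)} {τ τ' : ℍ}
    (hx : ∀ f, (placeAt p τ).ord (barC p f) = x.ord f)
    (hx' : ∀ f, (placeAt p τ').ord (barC p f) = x'.ord f)
    {g : SL(2, ℤ)} (hg : g ∈ CongruenceSubgroup.Gamma0 p) (h : g • τ = τ') : x = x' := by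
  refine Place.ext ?_
  ext f
  rw [JacTorsion.mem_iff_ord_nonneg, JacTorsion.mem_iff_ord_nonneg, ← hx, ← hx', ← h,
    placeAt_smul hg]

end Fermat.Agent.Mazur.Moduli
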